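import Fermat.Prelude.Def_FLTPrelim_Modularity
import Mathlib.Algebra.Field.ZMod
import Mathlib.Tactic.LinearCombination

/-!
# The trace at two and the invariant `c₄`

At a good prime `2` the trace is divisible by `3` only when `32 ∣ c₄`.
-/

set_option autoImplicit false

namespace Fermat.Agent.Row42

open WeierstrassCurve

/-- The number of affine solutions of a curve over the field with two elements. -/
def affineCountTwo (a₁ a₂ a₃ a₄ a₆ : ZMod 2) : ℕ :=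
  (Finset.univ.filter fun p : ZMod 2 × ZMod 2 =>
    p.2 ^ 2 + a₁ * p.1 * p.2 + a₃ * p.2 = p.1 ^ 3 + a₂ * p.1 ^ 2 + a₄ * p.1 + a₆).card

theorem affineCountTwo_eq_two : ∀ a₁ a₂ a₃ a₄ a₆ : ZMod 2,
    (⟨a₁, a₂, a₃, a₄, a₆⟩ : WeierstrassCurve (ZMod 2)).Δ ≠ 0 →
    affineCountTwo a₁ a₂ a₃ a₄ a₆ = 2 → a₁ = 0 ∧ a₃ = 1 ∧ a₂ + a₄ = 0 := by
  unfold affineCountTwo WeierstrassCurve.Δ WeierstrassCurve.b₂ WeierstrassCurve.b₄
    WeierstrassCurve.b₆ WeierstrassCurve.b₈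
  decide

/-- If `2` is good and `3 ∣ a₂` then `32 ∣ c₄`. -/
theorem thirty_two_dvd_c₄ (W : WeierstrassCurve ℤ) (h2 : W.IsGoodPrimeFor 2)
    (h3 : (3 : ℤ) ∣ W.apOfModel 2) : (32 : ℤ) ∣ W.c₄ := by
  have key : ∀ a b c d : ZMod 2, b + d = 0 → c = 1 →
      (a ^ 2 + b) ^ 2 - 3 * (a * c + d) = 0 := by decide
  set E : WeierstrassCurve (ZMod 2) := W.reductionMod 2 with hE
  have hΔ : E.Δ ≠ 0 := by
    rw [hE, reductionMod, map_Δ, Int.coe_castRingHom, Ne, ZMod.intCast_zmod_eq_zero_iff_dvd]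
    exact h2
  have : Fact (Nat.Prime 2) := ⟨Nat.prime_two⟩
  have : E.IsElliptic := ⟨Ne.isUnit (G₀ := ZMod 2) hΔ⟩
  have hcard : E.card = affineCountTwo E.a₁ E.a₂ E.a₃ E.a₄ E.a₆ + 1 := by
    rw [WeierstrassCurve.card, Nat.card_congr E.toAffine.pointEquiv,
      show Nat.card (WithZero {xy : ZMod 2 × ZMod 2 // E.toAffine.Equation xy.1 xy.2}) =
        Nat.card {xy : ZMod 2 × ZMod 2 // E.toAffine.Equation xy.1 xy.2} + 1 from
          Finite.card_option,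
      Nat.card_congr (Equiv.subtypeEquivRight
        (q := fun p : ZMod 2 × ZMod 2 =>
          p.2 ^ 2 + E.a₁ * p.1 * p.2 + E.a₃ * p.2 =
            p.1 ^ 3 + E.a₂ * p.1 ^ 2 + E.a₄ * p.1 + E.a₆)
        fun _ => Affine.equation_iff _ _), Nat.card_eq_fintype_card, Fintype.card_subtype]
    rfl
  have hle : affineCountTwo E.a₁ E.a₂ E.a₃ E.a₄ E.a₆ ≤ 4 :=
    (Finset.card_filter_le _ _).trans (by simp)
  have h2' : affineCountTwo E.a₁ E.a₂ E.a₃ E.a₄ E.a₆ = 2 := by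
    rw [apOfModel, ← hE, traceOfFrobenius, Nat.card_zmod, hcard] at h3
    push_cast at h3
    omega
  obtain ⟨h1, h3', h24⟩ := affineCountTwo_eq_two _ _ _ _ _ hΔ h2'
  obtain ⟨α, hα⟩ := (ZMod.intCast_zmod_eq_zero_iff_dvd _ 2).1 h1
  push_cast at hα
  have h := key (α : ZMod 2) _ _ _ h24 h3'
  obtain ⟨m, hm⟩ := (ZMod.intCast_zmod_eq_zero_iff_dvd
    ((α ^ 2 + W.a₂) ^ 2 - 3 * (α * W.a₃ + W.a₄)) 2).1 (by push_cast; exact h)
  refine ⟨m, ?_⟩
  push_cast at hm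
  simp only [WeierstrassCurve.c₄, WeierstrassCurve.b₂, WeierstrassCurve.b₄]
  rw [hα]
  linear_combination 16 * hm

end Fermat.Agent.Row42
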