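import Fermat.Agent.Row42.Forms
import Mathlib.AlgebraicGeometry.EllipticCurve.Weierstrass
import Mathlib.Data.ZMod.Basic
import Mathlib.RingTheory.Int.Basic
import Mathlib.RingTheory.Coprime.Lemmas
import Mathlib.Algebra.Ring.GeomSum
import Mathlib.Tactic.LinearCombination

/-!
# Integral models with prescribed invariants, multiplicative at two
-/

set_option autoImplicit false

namespace Fermat.Agent.Row42

open WeierstrassCurve

/-- An integral model with given invariants, multiplicative at two. -/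
theorem exists_model (W : WeierstrassCurve ℤ) {A B : ℤ} (hA : (27 : ℤ) ∣ A - W.c₄)
    (hB : (27 : ℤ) ∣ B - W.c₆) (hB4 : (4 : ℤ) ∣ B + 1) (hrel : (128 : ℤ) ∣ A ^ 3 - B ^ 2) :
    ∃ W' : WeierstrassCurve ℤ, W'.c₄ = A ∧ W'.c₆ = B := by
  obtain ⟨f, hf⟩ := hrel
  obtain ⟨g, hg⟩ := hB4
  have hA4 : (4 : ℤ) ∣ A - 1 := by
    have h4 : ((A : ZMod 4)) ^ 3 = 1 := by
      have h1 := congrArg (fun z : ℤ => (z : ZMod 4)) hf
      have h2 := congrArg (fun z : ℤ => (z : ZMod 4)) hg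
      push_cast at h1 h2
      rw [show (128 : ZMod 4) = 0 from by decide, zero_mul] at h1
      rw [show (4 : ZMod 4) = 0 from by decide, zero_mul] at h2
      linear_combination h1 + ((B : ZMod 4) - 1) * h2
    have key : ∀ x : ZMod 4, x ^ 3 = 1 → x = 1 := by decide
    have := key _ h4
    rw [← Int.cast_one, ZMod.intCast_eq_intCast_iff_dvd_sub] at this
    rw [← dvd_neg, neg_sub]
    exact_mod_cast this
  obtain ⟨i, j, hij⟩ : IsCoprime A ((2 : ℤ) ^ 7) :=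
    (((Prime.coprime_iff_not_dvd Int.prime_two).2 (by omega)).symm).pow_right
  set σ : ℤ := -B * i with hσ
  have hσ2 : (128 : ℤ) ∣ σ ^ 2 - A :=
    ⟨-A * j * (2 - 128 * j) - f * i ^ 2, by
      rw [hσ]; linear_combination (-(i ^ 2)) * hf + A * (A * i + 1 - 128 * j) * hij⟩
  have hσ3 : (128 : ℤ) ∣ σ ^ 3 + B :=
    ⟨B * (j * (1 + A * i + (A * i) ^ 2) + f * i ^ 3), by
      rw [hσ]; linear_combination (B * i ^ 3) * hf - B * (1 + A * i + (A * i) ^ 2) * hij⟩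
  obtain ⟨h, hh⟩ : (4 : ℤ) ∣ σ - 1 := by
    obtain ⟨c, hc⟩ := hA4
    exact ⟨-g * i - 32 * j - c * i, by
      rw [hσ]; linear_combination (-i) * hg + hij - i * hc⟩
  set a1 : ℤ := W.a₁ + 513 * (1 - W.a₁) with ha1
  set a2 : ℤ := W.a₂ + 513 * (h - W.a₂) with ha2
  set a3 : ℤ := -512 * W.a₃ with ha3
  set b2 : ℤ := a1 ^ 2 + 4 * a2 with hb2
  obtain ⟨p1, hp1⟩ : (128 : ℤ) ∣ b2 - σ :=
    ⟨8 * (1 - W.a₁) + 2048 * (1 - W.a₁) ^ 2 + 16 * (h - W.a₂), by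
        rw [hb2, ha1, ha2]; linear_combination -hh⟩
  have h27b2 : ((b2 : ℤ) : ZMod 27) = (W.b₂ : ZMod 27) := by
    rw [hb2, ha1, ha2, show W.b₂ = W.a₁ ^ 2 + 4 * W.a₂ from rfl]
    push_cast
    rw [show (513 : ZMod 27) = 0 from by decide]
    ring
  have hA27 : (A : ZMod 27) = (W.c₄ : ZMod 27) :=
    ((ZMod.intCast_eq_intCast_iff_dvd_sub _ _ 27).2 hA).symm
  have hB27 : (B : ZMod 27) = (W.c₆ : ZMod 27) :=
    ((ZMod.intCast_eq_intCast_iff_dvd_sub _ _ 27).2 hB).symm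
  have hW4 : (W.c₄ : ZMod 27) = (W.b₂ : ZMod 27) ^ 2 - 24 * (W.b₄ : ZMod 27) := by
    simp [WeierstrassCurve.c₄]
  have hW6 : (W.c₆ : ZMod 27) =
      -(W.b₂ : ZMod 27) ^ 3 + 36 * W.b₂ * W.b₄ - 216 * W.b₆ := by
    simp [WeierstrassCurve.c₆]
  obtain ⟨a4, ha4⟩ : (48 : ℤ) ∣ b2 ^ 2 - A - 24 * a1 * a3 := by
    refine (show IsCoprime (16 : ℤ) 3 from ⟨1, -5, by norm_num⟩).mul_dvd ?_ ?_
    · obtain ⟨q, hq⟩ := hσ2
      exact ⟨8 * q + 8 * p1 * (b2 + σ) + 768 * a1 * W.a₃, by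
        rw [ha3]; linear_combination hq + (b2 + σ) * hp1⟩
    · rw [show (3 : ℤ) = ((3 : ℕ) : ℤ) from rfl, ← ZMod.intCast_zmod_eq_zero_iff_dvd]
      have h3 : ((b2 ^ 2 - A : ℤ) : ZMod 3) = 0 := by
        rw [ZMod.intCast_zmod_eq_zero_iff_dvd]
        obtain ⟨q, hq⟩ := hA
        have := (ZMod.intCast_eq_intCast_iff_dvd_sub _ _ 27).1 h27b2
        obtain ⟨t, ht⟩ := this
        refine ⟨-9 * t * (b2 + W.b₂) + 8 * W.b₄ - 9 * q, ?_⟩
        rw [WeierstrassCurve.c₄] at hq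
        push_cast at ht
        linear_combination (-(b2 + W.b₂)) * ht - hq
      push_cast at h3 ⊢
      rw [show (24 : ZMod 3) = 0 from by decide, zero_mul, zero_mul, sub_zero]
      exact h3
  set b4 : ℤ := a1 * a3 + 2 * a4 with hb4
  have e4 : 24 * b4 = b2 ^ 2 - A := by rw [hb4]; linear_combination -ha4
  obtain ⟨a6, ha6⟩ : (864 : ℤ) ∣ -B - b2 ^ 3 + 36 * b2 * b4 - 216 * a3 ^ 2 := by
    refine (show IsCoprime (32 : ℤ) 27 from ⟨11, -13, by norm_num⟩).mul_dvd ?_ ?_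
    · obtain ⟨q, hq⟩ := hσ2
      obtain ⟨r, hr⟩ := hσ3
      have h16 : (16 : ℤ) ∣ b4 * 3 := ⟨q + p1 * (b2 + σ), by
        refine mul_left_cancel₀ (show (8 : ℤ) ≠ 0 by norm_num) ?_
        linear_combination e4 + hq + (b2 + σ) * hp1⟩
      obtain ⟨t, ht⟩ := h16
      exact ⟨-4 * r - 4 * p1 * (b2 ^ 2 + b2 * σ + σ ^ 2) + 6 * b2 * t
          - 216 * 8192 * W.a₃ ^ 2, by
        rw [ha3]
        linear_combination -hr - (b2 ^ 2 + b2 * σ + σ ^ 2) * hp1 + 12 * b2 * ht⟩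
    · rw [show (27 : ℤ) = ((27 : ℕ) : ℤ) from rfl, ← ZMod.intCast_zmod_eq_zero_iff_dvd]
      have h24 := congrArg (fun z : ℤ => (z : ZMod 27)) e4
      push_cast at h24 ⊢
      have e216 : (216 : ZMod 27) = 0 := by decide
      have e108 : (108 : ZMod 27) = 0 := by decide
      rw [hA27, hW4, h27b2] at h24
      rw [hB27, hW6, h27b2, e216]
      linear_combination 6 * (W.b₂ : ZMod 27) * h24
        - ((W.b₂ : ZMod 27) * ((b4 : ZMod 27) - (W.b₄ : ZMod 27))) * e108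
  refine ⟨⟨a1, a2, a3, a4, a6⟩, ?_, ?_⟩
  · simp only [WeierstrassCurve.c₄, WeierstrassCurve.b₂, WeierstrassCurve.b₄]
    linear_combination -e4
  · simp only [WeierstrassCurve.c₆, WeierstrassCurve.b₂, WeierstrassCurve.b₄,
      WeierstrassCurve.b₆]
    linear_combination ha6

end Fermat.Agent.Row42
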