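import Fermat.Agent.Row42.Forms
import Mathlib.AlgebraicGeometry.EllipticCurve.Weierstrass
import Mathlib.Data.ZMod.Basic
import Mathlib.Tactic.LinearCombination
import Mathlib.RingTheory.Int.Basic
import Mathlib.RingTheory.Coprime.Lemmas
import Mathlib.Algebra.Ring.GeomSum

/-!
# The forms at two, when the three-torsion allows multiplicative reduction at two

If `W` is semistable and either `2 ∣ Δ` or `32 ∣ c₄`, there are `l` with `cFour (l, 1)` equal to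
`256` times an odd number, `cSix (l, 1)` equal to `4096` times a number `≡ 3 (mod 4)` and
`cusp (l, 1)` in any prescribed class `2 ^ J * u` with `9 ≤ J`, all modulo `2 ^ 14`.
-/

set_option autoImplicit false

namespace Fermat.Agent.Row42

open WeierstrassCurve

/-- A map whose difference quotients are odd is onto modulo every power of two. -/
theorem exists_dvd_sub_of_odd_quotient (f : ℤ → ℤ)
    (hf : ∀ x y, ∃ t, f x - f y = (x - y) * (1 + 2 * t)) (n : ℕ) (c : ℤ) :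
    ∃ x, (2 : ℤ) ^ n ∣ f x - c := by
  induction n with
  | zero => exact ⟨0, by simp⟩
  | succ n ih =>
    obtain ⟨x, d, hd⟩ := ih
    rcases Int.even_or_odd d with ⟨e, he⟩ | ⟨e, he⟩
    · exact ⟨x, e, by rw [hd, he, pow_succ]; ring⟩
    · obtain ⟨t, ht⟩ := hf (x + 2 ^ n) x
      exact ⟨x + 2 ^ n, e + 1 + t, by
        rw [show f (x + 2 ^ n) - c = (f (x + 2 ^ n) - f x) + (f x - c) by ring, ht, hd, he,
          pow_succ]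
        ring⟩

/-- An odd number is invertible modulo `2 ^ 14`. -/
theorem exists_inv_two_pow {n : ℤ} (hn : ¬(2 : ℤ) ∣ n) :
    ∃ i : ℤ, ((n : ℤ) : ZMod (2 ^ 14)) * i = 1 := by
  obtain ⟨a, b, hab⟩ : IsCoprime n ((2 : ℤ) ^ 14) :=
    ((Int.prime_two.coprime_iff_not_dvd.2 hn).symm).pow_right
  refine ⟨a, ?_⟩
  have h := congrArg (fun z : ℤ => (z : ZMod (2 ^ 14))) hab
  push_cast at h
  rw [show (16384 : ZMod (2 ^ 14)) = 0 from by decide, mul_zero, add_zero] at h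
  rw [mul_comm]
  exact h

/-- Only the class modulo four of a multiplier of `4096` matters modulo `2 ^ 14`. -/
theorem mul_4096_eq {x c : ℤ} (h : (4 : ℤ) ∣ x - c) :
    (4096 * x : ℤ) = ((4096 * c : ℤ) : ZMod (2 ^ 14)) := by
  rw [ZMod.intCast_eq_intCast_iff_dvd_sub]
  obtain ⟨d, hd⟩ := h
  refine ⟨-d, ?_⟩
  push_cast
  linear_combination -4096 * hd

variable {W : WeierstrassCurve ℤ}

/-- The residues of the invariants at a multiplicative two. -/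
theorem invariants_two_mult (h4 : ¬(2 : ℤ) ∣ W.c₄) :
    (4 : ℤ) ∣ W.c₄ - 1 ∧ (4 : ℤ) ∣ W.c₆ + 1 := by
  have ha : ¬(2 : ℤ) ∣ W.a₁ := fun h => h4 (by
    obtain ⟨d, hd⟩ := h
    refine ⟨8 * (d ^ 2 + W.a₂) ^ 2 - 12 * W.b₄, ?_⟩
    rw [WeierstrassCurve.c₄, show W.b₂ = W.a₁ ^ 2 + 4 * W.a₂ from rfl, hd]
    ring)
  obtain ⟨d, hd⟩ : ∃ d, W.b₂ = 4 * d + 1 := by
    obtain ⟨t, ht⟩ : ∃ t, W.a₁ = 2 * t + 1 := ⟨W.a₁ / 2, by omega⟩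
    exact ⟨t ^ 2 + t + W.a₂, by rw [show W.b₂ = W.a₁ ^ 2 + 4 * W.a₂ from rfl, ht]; ring⟩
  exact ⟨⟨4 * d ^ 2 + 2 * d - 6 * W.b₄, by rw [WeierstrassCurve.c₄, hd]; ring⟩,
    ⟨-(16 * d ^ 3 + 12 * d ^ 2 + 3 * d) + 9 * (4 * d + 1) * W.b₄ - 54 * W.b₆,
      by rw [WeierstrassCurve.c₆, hd]; ring⟩⟩

/-- The invariants at a supersingular two with `32 ∣ c₄`. -/
theorem invariants_two_super (h2 : ¬(2 : ℤ) ∣ W.Δ) (h32 : (32 : ℤ) ∣ W.c₄) :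
    ∃ a b : ℤ, W.c₄ = 32 * a ∧ W.c₆ = 8 * b ∧ (4 : ℤ) ∣ b - 1 := by
  obtain ⟨a, ha⟩ := h32
  obtain ⟨t, ht⟩ : (2 : ℤ) ∣ W.a₁ := by
    by_contra hc
    obtain ⟨t, ht⟩ : ∃ t, W.a₁ = 2 * t + 1 := ⟨W.a₁ / 2, by omega⟩
    rw [WeierstrassCurve.c₄, show W.b₂ = W.a₁ ^ 2 + 4 * W.a₂ from rfl, ht] at ha
    ring_nf at ha
    omega
  obtain ⟨β, hβ⟩ : ∃ β, W.b₂ = 4 * β :=
    ⟨t ^ 2 + W.a₂, by rw [show W.b₂ = W.a₁ ^ 2 + 4 * W.a₂ from rfl, ht]; ring⟩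
  obtain ⟨γ, hγ⟩ : ∃ γ, W.b₄ = 2 * γ :=
    ⟨W.a₄ + t * W.a₃, by rw [show W.b₄ = 2 * W.a₄ + W.a₁ * W.a₃ from rfl, ht]; ring⟩
  have h3 : ¬(2 : ℤ) ∣ W.a₃ := fun ⟨d, hd⟩ => h2 (by
    have e6 : W.b₆ = 4 * (d ^ 2 + W.a₆) := by
      rw [show W.b₆ = W.a₃ ^ 2 + 4 * W.a₆ from rfl, hd]; ring
    refine ⟨-8 * β ^ 2 * W.b₈ - 32 * γ ^ 3 - 216 * (d ^ 2 + W.a₆) ^ 2
      + 144 * β * γ * (d ^ 2 + W.a₆), ?_⟩
    rw [WeierstrassCurve.Δ, hβ, hγ, e6]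
    ring)
  obtain ⟨d, hd⟩ : ∃ d, W.a₃ = 2 * d + 1 := ⟨W.a₃ / 2, by omega⟩
  refine ⟨a, -27 * W.b₆ + 36 * β * γ - 8 * β ^ 3, ha, ?_,
    ⟨-27 * (d ^ 2 + d + W.a₆) - 7 + 9 * β * γ - 2 * β ^ 3, ?_⟩⟩
  · rw [WeierstrassCurve.c₆, hβ, hγ]; ring
  · rw [show W.b₆ = W.a₃ ^ 2 + 4 * W.a₆ from rfl, hd]; ring

/-- The forms at two, multiplicative case. -/
theorem exists_point_two_mult (h2 : (2 : ℤ) ∣ W.Δ) (h4 : ¬(2 : ℤ) ∣ W.c₄) (J : ℕ) (u : ℤ) :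
    ∃ l : ℤ,
      (cusp W.c₄ W.c₆ l 1 : ℤ) = ((2 ^ (J + 9) * u : ℤ) : ZMod (2 ^ 14)) ∧
      (∃ o : ℤ, ¬(2 : ℤ) ∣ o ∧
        (cFour W.c₄ W.c₆ l 1 : ℤ) = ((256 * o : ℤ) : ZMod (2 ^ 14))) ∧
      (cSix W.c₄ W.c₆ l 1 : ℤ) = ((4096 * 3 : ℤ) : ZMod (2 ^ 14)) := by
  obtain ⟨h41, h61⟩ := invariants_two_mult h4
  obtain ⟨e, he⟩ := h2
  obtain ⟨i₄, hi₄⟩ := exists_inv_two_pow h4
  obtain ⟨i₆, hi₆⟩ := exists_inv_two_pow (n := W.c₆) (by omega)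
  have hi41 : (4 : ℤ) ∣ i₄ - 1 := by
    have h := hi₄
    rw [← Int.cast_mul, ← Int.cast_one, ZMod.intCast_eq_intCast_iff_dvd_sub] at h
    obtain ⟨d, hd⟩ := h
    obtain ⟨c, hc⟩ := h41
    exact ⟨-c * i₄ - 4096 * d, by push_cast at hd; linear_combination -hd - i₄ * hc⟩
  set s : ℤ := -W.c₆ * i₄ with hs
  have hs1 : (4 : ℤ) ∣ s - 1 := by
    obtain ⟨c, hc⟩ := h61
    obtain ⟨d, hd⟩ := hi41
    exact ⟨-c * i₄ + d, by rw [hs]; linear_combination hd - i₄ * hc⟩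
  obtain ⟨si, hsi⟩ := exists_inv_two_pow (n := s) (by omega)
  set η : ℤ := 27 * e * i₆ ^ 2 with hη
  set φ : ℤ → ℤ := fun w => -21 * η - 96 * η ^ 2 - w + 88 * w * η + 6 * w ^ 2 - 96 * w ^ 2 * η
    - 12 * w ^ 3 + 8 * w ^ 4 with hφ
  obtain ⟨w, hw⟩ := exists_dvd_sub_of_odd_quotient φ (fun x y =>
    ⟨-1 + 44 * η + (3 - 48 * η) * (x + y) - 6 * (x ^ 2 + x * y + y ^ 2)
      + 4 * (x + y) * (x ^ 2 + y ^ 2), by simp only [hφ]; ring⟩) 5 (2 ^ J * u * si ^ 4)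
  have hS : (1728 : ZMod (2 ^ 14)) * W.Δ = (W.c₆ : ZMod (2 ^ 14)) ^ 2 * (128 * η) := by
    rw [hη, he]
    push_cast
    linear_combination (-3456 * (e : ZMod (2 ^ 14))) *
      (1 + (W.c₆ : ZMod (2 ^ 14)) * i₆) * hi₆
  have hT : (W.c₄ : ZMod (2 ^ 14)) ^ 3 = (W.c₆ : ZMod (2 ^ 14)) ^ 2 * (1 + 128 * η) := by
    have h := congrArg (fun z : ℤ => (z : ZMod (2 ^ 14))) W.c_relation
    push_cast at h
    linear_combination hS - h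
  have ha : (W.c₄ : ZMod (2 ^ 14)) = (s : ZMod (2 ^ 14)) ^ 2 * (1 + 128 * η) := by
    rw [hs]; push_cast
    linear_combination (i₄ : ZMod (2 ^ 14)) ^ 2 * hT
      - (W.c₄ : ZMod (2 ^ 14)) * (1 + (W.c₄ : ZMod (2 ^ 14)) * i₄) * hi₄
  have hb : (W.c₆ : ZMod (2 ^ 14)) = -(s : ZMod (2 ^ 14)) ^ 3 * (1 + 128 * η) := by
    rw [hs]; push_cast
    linear_combination (W.c₆ : ZMod (2 ^ 14)) * (i₄ : ZMod (2 ^ 14)) ^ 3 * hT
      - (W.c₆ : ZMod (2 ^ 14)) * (1 + (W.c₄ : ZMod (2 ^ 14)) * i₄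
        + ((W.c₄ : ZMod (2 ^ 14)) * i₄) ^ 2) * hi₄
  refine ⟨s * (-3 + 8 * w), ?_, ⟨s ^ 6 * (1 + 2 * (80 * η + 1952 * η^2 + (-12288) * η^3
      + (-4) * w + (-592) * w * η + (-10240) * w * η^2 + 12 * w^2 + 1632 * w^2 * η
      + 12288 * w^2 * η^2 + (-16) * w^3 + (-2048) * w^3 * η + 8 * w^4 + 1024 * w^4 * η)), ?_, ?_⟩,
    ?_⟩
  · obtain ⟨d, hd⟩ := hw
    have hd' := congrArg (fun z : ℤ => (z : ZMod (2 ^ 14))) hd
    simp only [hφ] at hd'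
    push_cast at hd'
    simp only [cusp]
    push_cast
    rw [ha, hb]
    have h14 : ((2 : ZMod (2 ^ 14)) ^ 14) = 0 := by decide
    linear_combination (512 * (s : ZMod (2 ^ 14)) ^ 4) * hd'
      + (s : ZMod (2 ^ 14)) ^ 4 * d * h14
      + (512 * 2 ^ J * (u : ZMod (2 ^ 14))) * (1 + (s : ZMod (2 ^ 14)) * si
        + ((s : ZMod (2 ^ 14)) * si) ^ 2 + ((s : ZMod (2 ^ 14)) * si) ^ 3) * hsi
  · intro h
    rcases Int.prime_two.dvd_or_dvd h with h | h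
    · have := Int.prime_two.dvd_of_dvd_pow h
      omega
    · omega
  · simp only [cFour]
    push_cast
    rw [ha, hb]
    ring
  · have hx : (cSix W.c₄ W.c₆ (s * (-3 + 8 * w)) 1 : ℤ) =
        ((4096 * (s ^ 9 * (-1 + 4 * ((-60) * η + (-3864) * η^2 + (-43904) * η^3
          + (-1032192) * η^4 + 3 * w + 684 * w * η + 39456 * w * η^2 + 153600 * w * η^3
          + 2359296 * w * η^4 + (-15) * w^2 + (-3240) * w^2 * η + (-169920) * w^2 * η^2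
          + (-122880) * w^2 * η^3 + 40 * w^3 + 8080 * w^3 * η + 378880 * w^3 * η^2
          + (-60) * w^4 + (-11040) * w^4 * η + (-430080) * w^4 * η^2 + 48 * w^5
          + 7680 * w^5 * η + 196608 * w^5 * η^2 + (-16) * w^6 + (-2048) * w^6 * η))) : ℤ) :
          ZMod (2 ^ 14)) := by
      simp only [cSix]
      push_cast
      rw [ha, hb]
      ring
    refine hx.trans (mul_4096_eq ?_)
    have h9 : (4 : ℤ) ∣ s ^ 9 - 1 := hs1.trans (by simpa using sub_dvd_pow_sub_pow s 1 9)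
    generalize (-60) * η + (-3864) * η^2 + (-43904) * η^3
      + (-1032192) * η^4 + 3 * w + 684 * w * η + 39456 * w * η^2 + 153600 * w * η^3
      + 2359296 * w * η^4 + (-15) * w^2 + (-3240) * w^2 * η + (-169920) * w^2 * η^2
      + (-122880) * w^2 * η^3 + 40 * w^3 + 8080 * w^3 * η + 378880 * w^3 * η^2
      + (-60) * w^4 + (-11040) * w^4 * η + (-430080) * w^4 * η^2 + 48 * w^5
      + 7680 * w^5 * η + 196608 * w^5 * η^2 + (-16) * w^6 + (-2048) * w^6 * η = Q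
    obtain ⟨d, hd⟩ := h9
    exact ⟨d * (-1 + 4 * Q) + Q - 1, by linear_combination (-1 + 4 * Q) * hd⟩

/-- The forms at two, supersingular case. -/
theorem exists_point_two_super (h2 : ¬(2 : ℤ) ∣ W.Δ) (h32 : (32 : ℤ) ∣ W.c₄) (J : ℕ) (u : ℤ) :
    ∃ l : ℤ,
      (cusp W.c₄ W.c₆ l 1 : ℤ) = ((2 ^ (J + 9) * u : ℤ) : ZMod (2 ^ 14)) ∧
      (∃ o : ℤ, ¬(2 : ℤ) ∣ o ∧
        (cFour W.c₄ W.c₆ l 1 : ℤ) = ((256 * o : ℤ) : ZMod (2 ^ 14))) ∧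
      (cSix W.c₄ W.c₆ l 1 : ℤ) = ((4096 * 3 : ℤ) : ZMod (2 ^ 14)) := by
  obtain ⟨a, b, ha, hb, hb1⟩ := invariants_two_super h2 h32
  obtain ⟨c, hc⟩ := hb1
  set φ : ℤ → ℤ := fun z => 8 * z ^ 4 - b * z - 24 * a * z ^ 2 - 6 * a ^ 2 with hφ
  obtain ⟨z, d, hd⟩ := exists_dvd_sub_of_odd_quotient φ (fun x y =>
    ⟨4 * (x + y) * (x ^ 2 + y ^ 2) - 12 * a * (x + y) - 2 * c - 1,
      by simp only [hφ]; linear_combination (-(x - y)) * hc⟩) 5 (2 ^ J * u)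
  simp only [hφ] at hd
  refine ⟨8 * z, ?_, ⟨b ^ 2 + 2 * (32 * b * z^3 + 256 * a * z^4 + 16 * a * b * z
      + 768 * a^2 * z^2 + (-192) * a^3), ?_, ?_⟩, ?_⟩
  · rw [ha, hb, ZMod.intCast_eq_intCast_iff_dvd_sub]
    refine ⟨-d, ?_⟩
    simp only [cusp]
    push_cast
    linear_combination -512 * hd
  · intro h
    have : (2 : ℤ) ∣ b ^ 2 := (dvd_add_left (Dvd.intro _ rfl)).1 h
    have := Int.prime_two.dvd_of_dvd_pow this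
    omega
  · rw [ha, hb]
    congr 1
    simp only [cFour]
    ring
  · have hx : cSix W.c₄ W.c₆ (8 * z) 1 = 4096 * (-b ^ 3 + 4 * (128 * b * z^6 + 40 * b^2 * z^3
        + 960 * a * b * z^4 + (-12) * a * b^2 * z + 12288 * a^2 * z^5 + 480 * a^2 * b * z^2
        + 144 * a^3 * b + 9216 * a^4 * z)) := by
      rw [ha, hb]
      simp only [cSix]
      ring
    rw [hx]
    refine mul_4096_eq ?_
    generalize 128 * b * z^6 + 40 * b^2 * z^3 + 960 * a * b * z^4 + (-12) * a * b^2 * z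
      + 12288 * a^2 * z^5 + 480 * a^2 * b * z^2 + 144 * a^3 * b + 9216 * a^4 * z = Q
    exact ⟨-(16 * c ^ 3 + 12 * c ^ 2 + 3 * c) + Q - 1, by
      rw [show b = 4 * c + 1 by linarith]; ring⟩

/-- **The forms at two.** -/
theorem exists_point_two (hW : (2 : ℤ) ∣ W.Δ → ¬(2 : ℤ) ∣ W.c₄)
    (h : (2 : ℤ) ∣ W.Δ ∨ (32 : ℤ) ∣ W.c₄) (J : ℕ) (u : ℤ) :
    ∃ l : ℤ,
      (cusp W.c₄ W.c₆ l 1 : ℤ) = ((2 ^ (J + 9) * u : ℤ) : ZMod (2 ^ 14)) ∧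
      (∃ o : ℤ, ¬(2 : ℤ) ∣ o ∧
        (cFour W.c₄ W.c₆ l 1 : ℤ) = ((256 * o : ℤ) : ZMod (2 ^ 14))) ∧
      (cSix W.c₄ W.c₆ l 1 : ℤ) = ((4096 * 3 : ℤ) : ZMod (2 ^ 14)) := by
  by_cases h2 : (2 : ℤ) ∣ W.Δ
  · exact exists_point_two_mult h2 (hW h2) J u
  · exact exists_point_two_super h2 (h.resolve_left h2) J u

end Fermat.Agent.Row42
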