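import Fermat.Agent.Row42.Goals
import Fermat.Agent.Row42.SwitchA.TwoAdic
import Fermat.Agent.Row42.SwitchA.Model
import Fermat.Agent.Row42.SwitchA.AtTwo

/-!
# The switch on three-torsion to the two-adic shape

If `W` is semistable, and multiplicative at `2` or good there with `3 ∣ a₂`, some member of the
three-torsion family of `W` is semistable, has negative discriminant of the form `4 ^ k * r` with
`0 < k` and `r ≡ 5 (mod 8)`, and no rational two-torsion.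
-/

set_option autoImplicit false

namespace Fermat.Agent.Row42

open WeierstrassCurve

/-- The forms commute with the casts from the integers. -/
theorem cast_forms (R : Type*) [CommRing R] (a b l m : ℤ) :
    ((cusp a b l m : ℤ) : R) = cusp (a : R) b l m ∧
      ((cFour a b l m : ℤ) : R) = cFour (a : R) b l m ∧
      ((cSix a b l m : ℤ) : R) = cSix (a : R) b l m :=
  ⟨map_cusp (Int.castRingHom R) a b l m, map_cFour (Int.castRingHom R) a b l m,
    map_cSix (Int.castRingHom R) a b l m⟩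

/-- **The switch to the two-adic shape.** -/
theorem switchA (hM : MemberLemma) : SwitchA := by
  intro W hΔ hW hA
  have h2 : (2 : ℤ) ∣ W.Δ ∨ (32 : ℤ) ∣ W.c₄ := by
    by_cases hg : W.IsGoodPrimeFor 2
    · exact .inr (thirty_two_dvd_c₄ W hg (hA.resolve_left (not_not.2 hg)))
    · exact .inl (not_not.1 hg)
  obtain ⟨v, r, hr, hvr⟩ := WfDvdMonoid.max_power_factor hΔ Int.prime_two.irreducible
  obtain ⟨J, hJ⟩ : ∃ J : ℕ, J = (v + 1) % 2 := ⟨_, rfl⟩
  obtain ⟨l₀, hcusp, ⟨o, ho, hfour⟩, hsix⟩ :=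
    exists_point_two (fun h => hW 2 Nat.prime_two h) h2 J (5 * r)
  obtain ⟨a, b, hab⟩ : IsCoprime ((2 : ℤ) ^ 14) (81 * r) :=
    ((Int.prime_two.coprime_iff_not_dvd).2 (by omega)).pow_left
  set u₀ : ℤ := l₀ * (b * (81 * r)) + 4 * (a * 2 ^ 14) with hu₀
  set v₀ : ℤ := b * (81 * r) with hv₀
  clear_value u₀ v₀
  -- at two
  have h14 : ((2 : ZMod (2 ^ 14)) ^ 14) = 0 := by decide
  have hb1 : ((v₀ : ℤ) : ZMod (2 ^ 14)) = 1 := by
    have h := congrArg (fun z : ℤ => (z : ZMod (2 ^ 14))) hab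
    push_cast at h ⊢
    linear_combination h - (a : ZMod (2 ^ 14)) * h14
  have hu1 : ((u₀ : ℤ) : ZMod (2 ^ 14)) = (l₀ : ZMod (2 ^ 14)) := by
    rw [hu₀, Int.cast_add, Int.cast_mul, hb1]
    push_cast
    linear_combination (4 * (a : ZMod (2 ^ 14))) * h14
  -- away from two
  have hodd : ∀ n : ℕ, (n : ℤ) ∣ 81 * r →
      ((u₀ : ℤ) : ZMod n) = 4 ∧ ((cusp W.c₄ W.c₆ u₀ v₀ : ℤ) : ZMod n) = 256 ∧
      ((cFour W.c₄ W.c₆ u₀ v₀ : ℤ) : ZMod n) = 256 * (W.c₄ : ZMod n) ∧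
      ((cSix W.c₄ W.c₆ u₀ v₀ : ℤ) : ZMod n) = 4096 * (W.c₆ : ZMod n) := by
    intro n hn
    have h0 : ((81 * r : ℤ) : ZMod n) = 0 := (ZMod.intCast_zmod_eq_zero_iff_dvd _ n).2 hn
    have hv : ((v₀ : ℤ) : ZMod n) = 0 := by rw [hv₀, Int.cast_mul, h0, mul_zero]
    have hu : ((u₀ : ℤ) : ZMod n) = 4 := by
      have h := congrArg (fun z : ℤ => (z : ZMod n)) hab
      rw [hu₀, Int.cast_add, Int.cast_mul, hv]
      push_cast at h ⊢
      linear_combination 4 * h - 4 * hv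
    obtain ⟨e1, e2, e3⟩ := cast_forms (ZMod n) W.c₄ W.c₆ u₀ v₀
    rw [e1, e2, e3, hu, hv]
    simp only [cusp, cFour, cSix]
    exact ⟨trivial, by ring, by ring, by ring⟩
  obtain ⟨e1, e2, e3⟩ := cast_forms (ZMod (2 ^ 14)) W.c₄ W.c₆ u₀ v₀
  obtain ⟨f1, f2, f3⟩ := cast_forms (ZMod (2 ^ 14)) W.c₄ W.c₆ l₀ 1
  rw [hu1, hb1] at e1 e2 e3
  rw [Int.cast_one] at f1 f2 f3
  obtain ⟨A, hA4, hAodd⟩ : ∃ A : ℤ, cFour W.c₄ W.c₆ u₀ v₀ = 256 * A ∧ ¬(2 : ℤ) ∣ A := by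
    obtain ⟨t, ht⟩ :=
      (ZMod.intCast_eq_intCast_iff_dvd_sub _ _ _).1 ((f2.trans e2.symm).symm.trans hfour)
    push_cast at ht
    exact ⟨o - 64 * t, by linear_combination -ht, by omega⟩
  obtain ⟨B, hB6, hB4⟩ : ∃ B : ℤ, cSix W.c₄ W.c₆ u₀ v₀ = 4096 * B ∧ (4 : ℤ) ∣ B + 1 := by
    obtain ⟨t, ht⟩ :=
      (ZMod.intCast_eq_intCast_iff_dvd_sub _ _ _).1 ((f3.trans e3.symm).symm.trans hsix)
    push_cast at ht
    exact ⟨3 - 4 * t, by linear_combination -ht, ⟨1 - t, by ring⟩⟩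
  obtain ⟨w, hw⟩ : ∃ w : ℤ, cusp W.c₄ W.c₆ u₀ v₀ = 512 * w := by
    obtain ⟨t, ht⟩ :=
      (ZMod.intCast_eq_intCast_iff_dvd_sub _ _ _).1 ((f1.trans e1.symm).symm.trans hcusp)
    push_cast at ht
    exact ⟨2 ^ J * (5 * r) - 32 * t, by rw [pow_add] at ht; linear_combination -ht⟩
  have hrel : A ^ 3 - B ^ 2 = 1728 * (8 * W.Δ * w ^ 3) := by
    have h := cFour_cube_sub_cSix_sq W.c₄ W.c₆ u₀ v₀
    rw [hA4, hB6, hw, ← W.c_relation] at h
    refine mul_left_cancel₀ (show (16777216 : ℤ) ≠ 0 by norm_num) ?_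
    linear_combination h
  obtain ⟨-, h27c, h27f, h27s⟩ := hodd 27 ⟨3 * r, by ring⟩
  rw [hA4] at h27f
  rw [hB6] at h27s
  rw [hw] at h27c
  have hA27 : (27 : ℤ) ∣ A - W.c₄ := by
    have h : ((256 * A : ℤ) : ZMod 27) = ((256 * W.c₄ : ℤ) : ZMod 27) := by
      rw [h27f]; push_cast; ring
    rw [ZMod.intCast_eq_intCast_iff_dvd_sub] at h
    omega
  have hB27 : (27 : ℤ) ∣ B - W.c₆ := by
    have h : ((4096 * B : ℤ) : ZMod 27) = ((4096 * W.c₆ : ℤ) : ZMod 27) := by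
      rw [h27s]; push_cast; ring
    rw [ZMod.intCast_eq_intCast_iff_dvd_sub] at h
    omega
  have hw3 : ¬(3 : ℤ) ∣ w := by
    have h : ((512 * w : ℤ) : ZMod 27) = ((256 : ℤ) : ZMod 27) := by
      rw [h27c]; norm_num
    rw [ZMod.intCast_eq_intCast_iff_dvd_sub] at h
    omega
  obtain ⟨V, hV4, hV6⟩ :=
    exists_model W hA27 hB27 hB4 ⟨108 * W.Δ * w ^ 3, by linear_combination hrel⟩
  have hVΔ : V.Δ = 8 * W.Δ * w ^ 3 := by
    have h := V.c_relation
    rw [hV4, hV6, hrel] at h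
    linarith
  have hsupp : ∀ q : ℕ, q.Prime → q ∣ 2 ^ 14 * (3 * W.Δ).natAbs → q ≠ 2 →
      (q : ℤ) ∣ 81 * r := by
    intro q hq hqM hq2
    rcases hq.dvd_mul.1 hqM with h | h
    · exact absurd ((Nat.prime_dvd_prime_iff_eq hq Nat.prime_two).1 (hq.dvd_of_dvd_pow h)) hq2
    have hqZ : Prime (q : ℤ) := Nat.prime_iff_prime_int.1 hq
    rcases hqZ.dvd_or_dvd (Int.natCast_dvd.2 h) with h | h
    · exact h.trans ⟨27 * r, by ring⟩
    rw [hvr] at h
    rcases hqZ.dvd_or_dvd h with h | h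
    · exact absurd ((Nat.prime_dvd_prime_iff_eq hq Nat.prime_two).1
        (Int.natCast_dvd_natCast.1 (hqZ.dvd_of_dvd_pow h))) hq2
    · exact dvd_mul_of_dvd_right h _
  obtain ⟨W', u, v', -, hneg, hss, -, hMu, hMv, -, -, hΔ', ⟨-, hred⟩, hno, hcong⟩ :=
    hM W hΔ hW V 2 (2 ^ 14 * (3 * W.Δ).natAbs) u₀ v₀ (-1) (by norm_num)
      (mul_ne_zero (by norm_num) (Int.natAbs_ne_zero.2 (mul_ne_zero (by norm_num) hΔ)))
      (fun q hq h => by
        rw [Int.natCast_dvd, Int.natAbs_mul] at h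
        rw [Int.natAbs_mul]
        exact h.trans ⟨2 ^ 13, by simp only [Int.reduceAbs]; ring⟩)
      (fun q hq hqM h => by
        rcases eq_or_ne q 2 with rfl | hq2
        · have := h.2
          rw [hv₀] at this
          push_cast at this
          omega
        · have h4 := (hodd q (hsupp q hq hqM hq2)).1
          rw [(ZMod.intCast_zmod_eq_zero_iff_dvd _ q).2 h.1] at h4
          have h4' : q ∣ 4 := (CharP.cast_eq_zero_iff (ZMod q) q 4).1 (by exact_mod_cast h4.symm)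
          exact hq2 ((Nat.prime_dvd_prime_iff_eq hq Nat.prime_two).1
            (hq.dvd_of_dvd_pow (show q ∣ 2 ^ 2 from h4'))))
      (by rw [hA4, hV4]; simp)
      (by rw [hB6, hV6]; simp)
      (fun q hq hqΔ => by
        rw [hV4]
        rcases hq with rfl | rfl
        · exact hAodd
        · rw [hVΔ] at hqΔ
          push_cast at hqΔ ⊢
          have h3 : Prime (3 : ℤ) := Int.prime_three
          rcases h3.dvd_or_dvd hqΔ with h | h
          · have := hW 3 Nat.prime_three (by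
              rcases h3.dvd_or_dvd h with h | h
              · omega
              · exact_mod_cast h)
            push_cast at this
            omega
          · exact absurd (h3.dvd_of_dvd_pow h) hw3)
      (fun q hq hqM hq2 hq3 h => by
        obtain ⟨-, -, hf, -⟩ := hodd q (hsupp q hq hqM hq2)
        rw [(ZMod.intCast_zmod_eq_zero_iff_dvd _ q).2 h.2, eq_comm] at hf
        have hqZ : Prime (q : ℤ) := Nat.prime_iff_prime_int.1 hq
        have h256 : (q : ℤ) ∣ 256 * W.c₄ := by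
          rw [← ZMod.intCast_zmod_eq_zero_iff_dvd]
          push_cast at hf ⊢
          exact hf
        have hqr : (q : ℤ) ∣ r := (hqZ.dvd_or_dvd (hsupp q hq hqM hq2)).resolve_left fun h81 =>
          hq3 ((Nat.prime_dvd_prime_iff_eq hq Nat.prime_three).1
            (hq.dvd_of_dvd_pow (show q ∣ 3 ^ 4 from Int.natCast_dvd_natCast.1 h81)))
        refine hW q hq (hvr ▸ dvd_mul_of_dvd_right hqr _)
          ((hqZ.dvd_or_dvd h256).resolve_left fun h2' => hq2 ?_)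
        exact (Nat.prime_dvd_prime_iff_eq hq Nat.prime_two).1
          (hq.dvd_of_dvd_pow (show q ∣ 2 ^ 8 from Int.natCast_dvd_natCast.1 h2')))
  refine ⟨W', ⟨hss, by linarith, ?_, hno⟩, hcong, fun hg hd => ?_⟩
  swap
  · have h := congrArg WeierstrassCurve.Δ hred
    simp only [reductionMod, map_Δ, Int.coe_castRingHom, hVΔ] at h
    rw [(ZMod.intCast_zmod_eq_zero_iff_dvd _ 3).2 hd] at h
    rcases Int.prime_three.dvd_or_dvd ((ZMod.intCast_zmod_eq_zero_iff_dvd _ 3).1 h.symm) with h | h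
    · rcases Int.prime_three.dvd_or_dvd h with h | h
      · omega
      · exact hg (by exact_mod_cast h)
    · exact hw3 (Int.prime_three.dvd_of_dvd_pow h)
  have hM14 : ((2 ^ 14 : ℕ) : ℤ) ∣ ((2 ^ 14 * (3 * W.Δ).natAbs : ℕ) : ℤ) :=
    Int.natCast_dvd_natCast.2 (Dvd.intro _ rfl)
  obtain ⟨g1, -, -⟩ := cast_forms (ZMod (2 ^ 14)) W.c₄ W.c₆ u v'
  rw [((ZMod.intCast_eq_intCast_iff_dvd_sub u₀ u _).2 (hM14.trans hMu)).symm,
    ((ZMod.intCast_eq_intCast_iff_dvd_sub v₀ v' _).2 (hM14.trans hMv)).symm, hu1, hb1] at g1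
  obtain ⟨t, ht⟩ :=
    (ZMod.intCast_eq_intCast_iff_dvd_sub _ _ _).1 ((f1.trans g1.symm).symm.trans hcusp)
  push_cast at ht
  obtain ⟨k, hk⟩ : ∃ k, v + 3 * J + 3 = 2 * k := ⟨(v + 3 * J + 3) / 2, by omega⟩
  have hJ5 : J + 3 ≤ 5 := by omega
  obtain ⟨j, hj⟩ := Nat.exists_eq_add_of_le hJ5
  set w' : ℤ := 5 * r - 8 * 2 ^ j * t with hw'
  have hcv : cusp W.c₄ W.c₆ u v' = 2 ^ (J + 9) * w' := by
    have h14' : (2 : ℤ) ^ (J + 9) * (8 * 2 ^ j) = 16384 := by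
      rw [show (8 : ℤ) = 2 ^ 3 from rfl, ← pow_add, ← pow_add,
        show J + 9 + (3 + j) = 14 by omega]
      rfl
    rw [hw']
    linear_combination -ht + t * h14'
  have hW'Δ : W'.Δ = 4 ^ k * (r * w' ^ 3) := by
    refine mul_left_cancel₀ (pow_ne_zero (12 * 2) (show (2 : ℤ) ≠ 0 by norm_num)) ?_
    rw [hΔ', hvr, hcv, show (4 : ℤ) = 2 ^ 2 from rfl, ← pow_mul, mul_pow, ← pow_mul,
      show (2 : ℤ) ^ v * r * (2 ^ ((J + 9) * 3) * w' ^ 3) =
        (2 ^ v * 2 ^ ((J + 9) * 3)) * (r * w' ^ 3) by ring, ← pow_add,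
        ← mul_assoc (2 ^ (12 * 2) : ℤ),
      ← pow_add, show v + (J + 9) * 3 = 12 * 2 + 2 * k by omega]
  refine ⟨k, r * w' ^ 3, by omega, hW'Δ, ?_⟩
  obtain ⟨s, hs⟩ : ∃ s, r = 2 * s + 1 := ⟨(r - 1) / 2, by omega⟩
  have key : ∀ x : ZMod 8, (2 * x + 1) * (5 * (2 * x + 1)) ^ 3 = 5 := by decide
  have h8 : ((r * w' ^ 3 : ℤ) : ZMod 8) = ((5 : ℤ) : ZMod 8) := by
    rw [hw', hs]
    push_cast
    rw [show (8 : ZMod 8) = 0 from by decide, zero_mul, zero_mul, sub_zero]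
    exact key _
  exact (ZMod.intCast_eq_intCast_iff' _ _ 8).1 h8

end Fermat.Agent.Row42
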